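import Fermat.Agent.H74.ORD.NmGalR
import Fermat.Agent.H84.ORD.NodalSpecFinal
import Fermat.Agent.H85.ORD.GalGauss
import Fermat.Agent.H85.ORD.GalW

/-!
# P-ORD, block B1-GAL : `NodalGalHyp` for the concrete nodal data `nmG` (helper74)

`nmGalHyp_of_soft : NmSoftStatement M p → NmGalHypStatement M p`, assembled from

* the `r`-half `Fermat.Agent.H74.ORD.nmGalHyp_of` (equivariance of the centres);
* the uniqueness of the centre under a place, `NmBase.centre_eq_of_specOo / _specZero`
  (helper84);
* the Galois action on the Gauss ring, `gg_dec_gaussOBar`, `gg_inertia_gaussOBar`, and the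
  commutation of the Atkin-Lehner automorphism with it, `gw_comm_of_perm` (helper85).
-/

set_option autoImplicit false
set_option linter.unusedSectionVars false

noncomputable section

open AlgebraicCurve ModularCurve

namespace Fermat.Agent.H74.ORD

open Fermat.Agent.H72.FF Fermat.Agent.H18.ORD Fermat.Agent.H66 Fermat.Agent.H27.ESD
open Fermat.Agent.H84.ORD Fermat.Agent.H10.FF Fermat.Agent.H85.ORD

variable {M p : ℕ} [NeZero M] [NeZero p]

/-- the Atkin-Lehner automorphism commutes with the coefficientwise Galois action -/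
theorem nmW_galF_comm (hcop : Nat.Coprime M p) (σ : GQ) (y : FLb (M * p)) :
    nmW M p hcop (galF (M * p) σ • y) = galF (M * p) σ • nmW M p hcop y := by
  refine gw_comm_of_perm (nmW M p hcop) ?_ σ y
  intro d hd0 hd
  obtain ⟨d'', h1, h2, e, -⟩ := (nmW_spec M p hcop).1 d hd0 hd
  exact ⟨d'', h1, h2, e⟩

/-- **B1-GAL** : the Galois compatibility of `nmG`, from the soft facts. -/
theorem nmGalHyp_of_soft (hS : NmSoftStatement M p) : NmGalHypStatement M p := by
  intro A h htot
  have H : NmBase M p A := nmBase_of_soft hS h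
  have hdoo : ∀ σ ∈ A.decompositionSubgroup ℚ, ∀ u ∈ gaussOBar (M * p) A,
      galF (M * p) σ • u ∈ gaussOBar (M * p) A :=
    fun σ hσ u hu => gg_dec_gaussOBar σ hσ u hu
  have hioo : ∀ σ ∈ A.inertiaSubgroupIn ℚ, ∀ (u : gaussOBar (M * p) A)
      (hm : galF (M * p) σ • (u : FLb (M * p)) ∈ gaussOBar (M * p) A),
      nmRedOo (M * p) A ⟨_, hm⟩ = nmRedOo (M * p) A u :=
    fun σ hσ u hm => Subtype.ext (gg_inertia_gaussOBar σ hσ u hm)
  refine nmGalHyp_of (fun P P' Q hQ hQ' => H.centre_eq_of_specOo hQ hQ')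
    (fun P P' Q hQ hQ' => H.centre_eq_of_specZero hQ hQ') htot hdoo ?_ hioo ?_
  · intro σ hσ u hu
    exact gw_dec_comap (nmW M p h.cop) σ (nmW_galF_comm h.cop σ) (gaussOBar (M * p) A)
      (hdoo σ hσ) u hu
  · intro σ hσ w hm
    rw [nmRed0_apply, nmRed0_apply]
    have e : nmW M p h.cop (galF (M * p) σ • (w : FLb (M * p))) =
        galF (M * p) σ • nmW M p h.cop (w : FLb (M * p)) := nmW_galF_comm h.cop σ _
    have hm' : galF (M * p) σ •
        ((⟨nmW M p h.cop (w : FLb (M * p)), w.2⟩ : gaussOBar (M * p) A) : FLb (M * p)) ∈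
        gaussOBar (M * p) A := by
      show galF (M * p) σ • nmW M p h.cop (w : FLb (M * p)) ∈ gaussOBar (M * p) A
      rw [← e]
      exact hm
    have key := hioo σ hσ ⟨nmW M p h.cop (w : FLb (M * p)), w.2⟩ hm'
    rw [← key]
    congr 1
    exact Subtype.ext e

end Fermat.Agent.H74.ORD
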