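import Fermat.Agent.H84.ORD.NodalModelAPI
import Fermat.Agent.H8.InertiaBasic

/-!
# P-ORD, block B1-GAL, the `r`-half (helper74)

For the concrete nodal data `nmG` of helper84 (`Fermat.Agent.H84.ORD.NodalModel`):

* `galF_smul_algebraMap`, `hasValue_smul_iff` : the coefficientwise Galois action on constants
  and on values at places;
* `mem_nmInt_smul_iff`, `mem_nmMax_smul_iff`, `nmY_smul`, `mem_nmChart_smul_iff`,
  `mem_nmCentre_smul_iff` : for `σ` in the decomposition group of `A`,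
  `nmCentre A (σ P) = σ (nmCentre A P)`;
* `nmR_congr` : the specialisation `nmR` depends only on the centre;
* `nm_dec_r`, `nm_inertia_r` : the fields `dec_r`, `inertia_r` of `NodalGalHyp (nmG htot)` from
  the uniqueness of the centre under a place (`NmCentreUniqueOo`, `NmCentreUniqueZero`) and the
  four Gauss-ring fields;
* `nmGalHyp_of` : the assembly of `NodalGalHyp (nmG htot)`.
-/

set_option autoImplicit false
set_option linter.unusedSectionVars false

noncomputable section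

open AlgebraicCurve ModularCurve

namespace Fermat.Agent.H74.ORD

open Fermat.Agent.H72.FF Fermat.Agent.H18.ORD Fermat.Agent.H66 Fermat.Agent.H27.ESD
open Fermat.Agent.H84.ORD Fermat.Agent.H10.FF

/-! ### The action on constants and values -/

theorem galF_smul_algebraMap (N : ℕ) (σ : GQ) (c : Qb) :
    galF N σ • algebraMap Qb (FLb N) c = algebraMap Qb (FLb N) (σ c) :=
  SemilinearAut.smul_algebraMap (galF N σ) c

theorem hasValue_smul_iff {N : ℕ} (σ : GQ) (P : Place Qb (FLb N)) (f : FLb N) (c : Qb) :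
    HasValue (galF N σ • P) (galF N σ • f) (σ c) ↔ HasValue P f c := by
  unfold HasValue
  rw [← galF_smul_algebraMap N σ c, ← smul_sub, SemilinearAut.ord_smul,
    smul_left_cancel_iff]

theorem hasValue_smul_iff' {N : ℕ} (σ : GQ) (P : Place Qb (FLb N)) (f : FLb N) (c : Qb) :
    HasValue (galF N σ • P) f c ↔ HasValue P ((galF N σ)⁻¹ • f) (σ.symm c) := by
  rw [← hasValue_smul_iff σ P ((galF N σ)⁻¹ • f) (σ.symm c), smul_inv_smul,
    AlgEquiv.apply_symm_apply]

/-! ### The decomposition group and `A` -/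

theorem dec_symm_mem {A : ValuationSubring Qb} {σ : GQ} (hσ : σ ∈ A.decompositionSubgroup ℚ) :
    σ.symm ∈ A.decompositionSubgroup ℚ :=
  inv_mem hσ

theorem dec_apply_mem_iff {A : ValuationSubring Qb} {σ : GQ}
    (hσ : σ ∈ A.decompositionSubgroup ℚ) (c : Qb) : σ c ∈ A ↔ c ∈ A :=
  Fermat.Agent.H8.apply_mem_iff_of_mem_decomposition A hσ

theorem dec_apply_mem_nonunits_iff {A : ValuationSubring Qb} {σ : GQ}
    (hσ : σ ∈ A.decompositionSubgroup ℚ) (c : Qb) : σ c ∈ A.nonunits ↔ c ∈ A.nonunits := by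
  rw [ValuationSubring.mem_nonunits_iff_exists_mem_maximalIdeal,
    ValuationSubring.mem_nonunits_iff_exists_mem_maximalIdeal]
  constructor
  · rintro ⟨h, hm⟩
    have hc : c ∈ A := (dec_apply_mem_iff hσ c).1 h
    refine ⟨hc, ?_⟩
    rw [IsLocalRing.mem_maximalIdeal, mem_nonunits_iff] at hm ⊢
    intro hu
    apply hm
    obtain ⟨u, hu⟩ := hu
    have h1 : (u : A) * (u⁻¹ : Aˣ) = 1 := by simp
    have h2 : ((u : A) : Qb) * (((u⁻¹ : Aˣ) : A) : Qb) = 1 := by
      exact_mod_cast congrArg Subtype.val h1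
    rw [hu] at h2
    have h3 : σ c * σ (((u⁻¹ : Aˣ) : A) : Qb) = 1 := by
      rw [← map_mul, h2, map_one]
    exact IsUnit.of_mul_eq_one
      (⟨σ (((u⁻¹ : Aˣ) : A) : Qb), (dec_apply_mem_iff hσ _).2 ((u⁻¹ : Aˣ) : A).2⟩ : A)
      (Subtype.ext h3)
  · rintro ⟨h, hm⟩
    have hc : σ c ∈ A := (dec_apply_mem_iff hσ c).2 h
    refine ⟨hc, ?_⟩
    rw [IsLocalRing.mem_maximalIdeal, mem_nonunits_iff] at hm ⊢
    intro hu
    apply hm
    obtain ⟨u, hu⟩ := hu
    have h1 : (u : A) * (u⁻¹ : Aˣ) = 1 := by simp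
    have h2 : ((u : A) : Qb) * (((u⁻¹ : Aˣ) : A) : Qb) = 1 := by
      exact_mod_cast congrArg Subtype.val h1
    rw [hu] at h2
    have h3 : c * σ.symm (((u⁻¹ : Aˣ) : A) : Qb) = 1 := by
      have := congrArg σ.symm h2
      rwa [map_mul, map_one, AlgEquiv.symm_apply_apply] at this
    exact IsUnit.of_mul_eq_one
      (⟨σ.symm (((u⁻¹ : Aˣ) : A) : Qb),
        (dec_apply_mem_iff (dec_symm_mem hσ) _).2 ((u⁻¹ : Aˣ) : A).2⟩ : A)
      (Subtype.ext h3)

/-! ### Equivariance of the composite valuation ring, of the charts and of the centres -/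

section Equiv

variable {N : ℕ} [NeZero N] {A : ValuationSubring Qb} {σ : GQ}

theorem mem_nmInt_smul_iff (hσ : σ ∈ A.decompositionSubgroup ℚ) (P : Place Qb (FLb N))
    (f : FLb N) : f ∈ nmInt A (galF N σ • P) ↔ (galF N σ)⁻¹ • f ∈ nmInt A P := by
  constructor
  · rintro ⟨c, hc, hv⟩
    exact ⟨σ.symm c, (dec_apply_mem_iff (dec_symm_mem hσ) c).2 hc,
      (hasValue_smul_iff' σ P f c).1 hv⟩
  · rintro ⟨c, hc, hv⟩
    refine ⟨σ c, (dec_apply_mem_iff hσ c).2 hc, ?_⟩
    rw [hasValue_smul_iff', AlgEquiv.symm_apply_apply]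
    exact hv

theorem mem_nmMax_smul_iff (hσ : σ ∈ A.decompositionSubgroup ℚ) (P : Place Qb (FLb N))
    (f : FLb N) : f ∈ nmMax A (galF N σ • P) ↔ (galF N σ)⁻¹ • f ∈ nmMax A P := by
  constructor
  · rintro ⟨c, hc, hv⟩
    exact ⟨σ.symm c, (dec_apply_mem_nonunits_iff (dec_symm_mem hσ) c).2 hc,
      (hasValue_smul_iff' σ P f c).1 hv⟩
  · rintro ⟨c, hc, hv⟩
    refine ⟨σ c, (dec_apply_mem_nonunits_iff hσ c).2 hc, ?_⟩
    rw [hasValue_smul_iff', AlgEquiv.symm_apply_apply]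
    exact hv

/-- `j` has rational `q`-expansion. -/
theorem galF_smul_nmJ (σ : GQ) : galF N σ • nmJ N = nmJ N := by
  apply Subtype.ext
  rw [coe_arithmeticGalois_smul]
  exact coeffMap_coeffEmb σ _

theorem galF_inv_smul_nmJ (σ : GQ) : (galF N σ)⁻¹ • nmJ N = nmJ N := by
  rw [inv_smul_eq_iff, galF_smul_nmJ]

theorem nmY_smul (hσ : σ ∈ A.decompositionSubgroup ℚ) (P : Place Qb (FLb N)) :
    nmY A (galF N σ • P) = nmY A P := by
  classical
  unfold nmY
  have h : nmJ N ∈ nmInt A (galF N σ • P) ↔ nmJ N ∈ nmInt A P := by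
    rw [mem_nmInt_smul_iff hσ, galF_inv_smul_nmJ]
  by_cases h1 : nmJ N ∈ nmInt A P
  · rw [if_pos h1, if_pos (h.2 h1)]
  · rw [if_neg h1, if_neg (fun h2 => h1 (h.1 h2))]

theorem nmY_eq_or (P : Place Qb (FLb N)) : nmY A P = nmJ N ∨ nmY A P = (nmJ N)⁻¹ := by
  classical
  unfold nmY
  split_ifs
  · exact Or.inl rfl
  · exact Or.inr rfl

theorem galF_smul_nmY (σ : GQ) (P : Place Qb (FLb N)) : galF N σ • nmY A P = nmY A P := by
  rcases nmY_eq_or (A := A) P with h | h
  · rw [h, galF_smul_nmJ]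
  · rw [h, smul_inv'', galF_smul_nmJ]

theorem galF_inv (σ : GQ) : (galF N σ)⁻¹ = galF N σ⁻¹ :=
  (map_inv (arithmeticGalois (modularFunctionFieldFull N)) σ).symm

/-- the ring `A[y]` is stable under the decomposition group when `y` is fixed -/
theorem smul_mem_nmPoly (hσ : σ ∈ A.decompositionSubgroup ℚ) {y : FLb N}
    (hy : galF N σ • y = y) {f : FLb N} (hf : f ∈ nmPoly N A y) :
    galF N σ • f ∈ nmPoly N A y := by
  unfold nmPoly at hf ⊢
  induction hf using Subring.closure_induction with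
  | mem x hx =>
    apply Subring.subset_closure
    rcases hx with ⟨c, hc, rfl⟩ | hx
    · left
      exact ⟨σ c, (dec_apply_mem_iff hσ c).2 hc, (galF_smul_algebraMap N σ c).symm⟩
    · right
      rw [Set.mem_singleton_iff] at hx ⊢
      rw [hx, hy]
  | zero => rw [smul_zero]; exact Subring.zero_mem _
  | one => rw [smul_one]; exact Subring.one_mem _
  | add x z _ _ hx hz => rw [smul_add]; exact Subring.add_mem _ hx hz
  | neg x _ hx => rw [smul_neg]; exact Subring.neg_mem _ hx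
  | mul x z _ _ hx hz => rw [smul_mul']; exact Subring.mul_mem _ hx hz

/-- the chart `B̄(y)` is stable under the decomposition group when `y` is fixed -/
theorem smul_mem_nmChart (hσ : σ ∈ A.decompositionSubgroup ℚ) {y : FLb N}
    (hy : galF N σ • y = y) {f : FLb N} (hf : f ∈ nmChart N A y) :
    galF N σ • f ∈ nmChart N A y := by
  rw [mem_nmChart_iff] at hf ⊢
  obtain ⟨q, hq, hq0⟩ := hf
  let g : FLb N →+* FLb N := (SemilinearAut.toRingAut (galF N σ) : FLb N ≃+* FLb N)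
  let φ : ↥(nmPoly N A y) →+* ↥(nmPoly N A y) :=
    RingHom.codRestrict (g.comp (nmPoly N A y).subtype) (nmPoly N A y)
      (fun r => smul_mem_nmPoly hσ hy r.2)
  refine ⟨q.map φ, hq.map φ, ?_⟩
  rw [Polynomial.eval₂_map]
  have h1 : (nmPoly N A y).subtype.comp φ = g.comp (nmPoly N A y).subtype := by
    ext r
    rfl
  rw [h1]
  have h2 := Polynomial.hom_eval₂ q (nmPoly N A y).subtype g f
  rw [hq0, map_zero] at h2
  exact h2.symm

theorem smul_mem_nmChart_iff (hσ : σ ∈ A.decompositionSubgroup ℚ) {y : FLb N}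
    (hy : galF N σ • y = y) (f : FLb N) :
    galF N σ • f ∈ nmChart N A y ↔ f ∈ nmChart N A y := by
  refine ⟨fun h => ?_, smul_mem_nmChart hσ hy⟩
  have hy' : galF N σ⁻¹ • y = y := by
    rw [← galF_inv, inv_smul_eq_iff, hy]
  have := smul_mem_nmChart (inv_mem hσ) hy' h
  rwa [← galF_inv, inv_smul_smul] at this

/-- **Equivariance of the centres** : `nmCentre A (σ P) = σ (nmCentre A P)`. -/
theorem mem_nmCentre_smul_iff (hσ : σ ∈ A.decompositionSubgroup ℚ) (P : Place Qb (FLb N))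
    (f : FLb N) : f ∈ nmCentre A (galF N σ • P) ↔ (galF N σ)⁻¹ • f ∈ nmCentre A P := by
  rw [mem_nmCentre_iff, mem_nmCentre_iff, nmY_smul hσ]
  have h1 : (galF N σ)⁻¹ • f ∈ nmChart N A (nmY A P) ↔ f ∈ nmChart N A (nmY A P) := by
    rw [galF_inv]
    refine smul_mem_nmChart_iff (inv_mem hσ) ?_ f
    rw [← galF_inv, inv_smul_eq_iff, galF_smul_nmY]
  rw [h1]
  exact and_congr_right fun _ => mem_nmMax_smul_iff hσ P f

theorem smul_mem_nmCentre_smul_iff (hσ : σ ∈ A.decompositionSubgroup ℚ) (P : Place Qb (FLb N))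
    (f : FLb N) : galF N σ • f ∈ nmCentre A (galF N σ • P) ↔ f ∈ nmCentre A P := by
  rw [mem_nmCentre_smul_iff hσ, inv_smul_smul]

/-- the decomposition group permutes the places with a given centre -/
theorem nmCentre_smul_congr (hσ : σ ∈ A.decompositionSubgroup ℚ) {P P' : Place Qb (FLb N)}
    (h : nmCentre A P = nmCentre A P') :
    nmCentre A (galF N σ • P) = nmCentre A (galF N σ • P') := by
  ext f
  rw [mem_nmCentre_smul_iff hσ, mem_nmCentre_smul_iff hσ, h]

end Equiv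

/-! ### The specialisation map -/

section Spec

variable {M p : ℕ} [NeZero M] [NeZero p] {hcop : Nat.Coprime M p} {A : ValuationSubring Qb}

/-- the specialisation as a function of the centre -/
def nmRAux (S : Set (FLb (M * p))) (hS : NmOnOo M p A S ∨ NmOnZero M p hcop A S) :
    NPt (Place (kRes A) (NmF (M * p) A)) (Place (kRes A) (NmF (M * p) A)) (NmNode M p hcop A) :=
  open Classical in
  if h : NmIsNode M p hcop A S then NPt.node ⟨S, h⟩
  else if h' : NmOnOo M p A S then NPt.oo (Classical.choose h')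
  else NPt.zero (Classical.choose (hS.resolve_left h'))

theorem nmR_eq_aux (htot : NmTot M p hcop A) (P : Place Qb (FLb (M * p))) :
    nmR htot P = nmRAux (nmCentre A P) (htot P) := rfl

theorem nmRAux_congr {S S' : Set (FLb (M * p))} (h : S = S')
    (hS : NmOnOo M p A S ∨ NmOnZero M p hcop A S)
    (hS' : NmOnOo M p A S' ∨ NmOnZero M p hcop A S') :
    nmRAux S hS = nmRAux S' hS' := by
  subst h
  rfl

/-- **`nmR` depends only on the centre.** -/
theorem nmR_congr (htot : NmTot M p hcop A) {P P' : Place Qb (FLb (M * p))}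
    (h : nmCentre A P = nmCentre A P') : nmR htot P = nmR htot P' := by
  rw [nmR_eq_aux, nmR_eq_aux]
  exact nmRAux_congr h _ _

variable (M p hcop A)

/-- **(U), component `∞`** : a place of `F_∞` lies over at most one centre. -/
def NmCentreUniqueOo : Prop :=
  ∀ (P P' : Place Qb (FLb (M * p))) (Q : Place (kRes A) (NmF (M * p) A)),
    NmSpecOo M p A (nmCentre A P) Q → NmSpecOo M p A (nmCentre A P') Q →
      nmCentre A P = nmCentre A P'

/-- **(U), component `0`** : a place of `F_0` lies over at most one centre. -/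
def NmCentreUniqueZero : Prop :=
  ∀ (P P' : Place Qb (FLb (M * p))) (Q : Place (kRes A) (NmF (M * p) A)),
    NmSpecZero M p hcop A (nmCentre A P) Q → NmSpecZero M p hcop A (nmCentre A P') Q →
      nmCentre A P = nmCentre A P'

variable {M p hcop A}

/-- under (U), the fibres of `nmR` are the fibres of the centre map -/
theorem nmCentre_eq_of_nmR_eq (hUoo : NmCentreUniqueOo M p A)
    (hU0 : NmCentreUniqueZero M p hcop A) (htot : NmTot M p hcop A)
    {P P' : Place Qb (FLb (M * p))} (h : nmR htot P = nmR htot P') :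
    nmCentre A P = nmCentre A P' := by
  rcases hx : nmR htot P' with Q | Q | ν
  · rw [hx] at h
    exact hUoo P P' Q (nmR_oo htot P Q h).2 (nmR_oo htot P' Q hx).2
  · rw [hx] at h
    exact hU0 P P' Q (nmR_zero htot P Q h).2 (nmR_zero htot P' Q hx).2
  · rw [hx] at h
    rw [(nmR_node_iff htot P ν).1 h, (nmR_node_iff htot P' ν).1 hx]

/-- **`dec_r`** : the decomposition group permutes the fibres of the specialisation. -/
theorem nm_dec_r (hUoo : NmCentreUniqueOo M p A) (hU0 : NmCentreUniqueZero M p hcop A)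
    (htot : NmTot M p hcop A) (σ : GQ) (hσ : σ ∈ A.decompositionSubgroup ℚ)
    (P P' : Place Qb (FLb (M * p))) (h : nmR htot P = nmR htot P') :
    nmR htot (galF (M * p) σ • P) = nmR htot (galF (M * p) σ • P') :=
  nmR_congr htot (nmCentre_smul_congr hσ (nmCentre_eq_of_nmR_eq hUoo hU0 htot h))

/-- `NmSpecOo` is transported by an automorphism preserving `V_∞` and its reduction. -/
theorem nmSpecOo_smul (σ : GQ) (hσ : σ ∈ A.decompositionSubgroup ℚ)
    (hmem : ∀ u ∈ gaussOBar (M * p) A, galF (M * p) σ⁻¹ • u ∈ gaussOBar (M * p) A)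
    (hred : ∀ (u : gaussOBar (M * p) A)
      (h : galF (M * p) σ • (u : FLb (M * p)) ∈ gaussOBar (M * p) A),
      nmRedOo (M * p) A ⟨_, h⟩ = nmRedOo (M * p) A u)
    (P : Place Qb (FLb (M * p))) (Q : Place (kRes A) (NmF (M * p) A))
    (h : NmSpecOo M p A (nmCentre A P) Q) :
    NmSpecOo M p A (nmCentre A (galF (M * p) σ • P)) Q := by
  intro f hf hfV
  rw [mem_nmCentre_smul_iff hσ, galF_inv] at hf
  have h1 := hmem f hfV
  have h2 := h _ hf h1
  have h3 : galF (M * p) σ • ((⟨_, h1⟩ : gaussOBar (M * p) A) : FLb (M * p)) = f := by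
    show galF (M * p) σ • (galF (M * p) σ⁻¹ • f) = f
    rw [← galF_inv, smul_inv_smul]
  have h4 := hred ⟨_, h1⟩ (by rw [h3]; exact hfV)
  have h5 : (⟨galF (M * p) σ • ((⟨_, h1⟩ : gaussOBar (M * p) A) : FLb (M * p)),
      by rw [h3]; exact hfV⟩ : gaussOBar (M * p) A) = ⟨f, hfV⟩ := Subtype.ext h3
  rw [h5] at h4
  rw [h4]
  exact h2

/-- `NmSpecZero` is transported by an automorphism preserving `V_0` and its reduction. -/
theorem nmSpecZero_smul (σ : GQ) (hσ : σ ∈ A.decompositionSubgroup ℚ)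
    (hmem : ∀ u ∈ nmV0 M p hcop A, galF (M * p) σ⁻¹ • u ∈ nmV0 M p hcop A)
    (hred : ∀ (u : nmV0 M p hcop A)
      (h : galF (M * p) σ • (u : FLb (M * p)) ∈ nmV0 M p hcop A),
      nmRed0 M p hcop A ⟨_, h⟩ = nmRed0 M p hcop A u)
    (P : Place Qb (FLb (M * p))) (Q : Place (kRes A) (NmF (M * p) A))
    (h : NmSpecZero M p hcop A (nmCentre A P) Q) :
    NmSpecZero M p hcop A (nmCentre A (galF (M * p) σ • P)) Q := by
  intro f hf hfV
  rw [mem_nmCentre_smul_iff hσ, galF_inv] at hf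
  have h1 := hmem f hfV
  have h2 := h _ hf h1
  have h3 : galF (M * p) σ • ((⟨_, h1⟩ : nmV0 M p hcop A) : FLb (M * p)) = f := by
    show galF (M * p) σ • (galF (M * p) σ⁻¹ • f) = f
    rw [← galF_inv, smul_inv_smul]
  have h4 := hred ⟨_, h1⟩ (by rw [h3]; exact hfV)
  have h5 : (⟨galF (M * p) σ • ((⟨_, h1⟩ : nmV0 M p hcop A) : FLb (M * p)),
      by rw [h3]; exact hfV⟩ : nmV0 M p hcop A) = ⟨f, hfV⟩ := Subtype.ext h3
  rw [h5] at h4
  rw [h4]
  exact h2

/-- **`inertia_r`** : the inertia group preserves the specialisation of points. -/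
theorem nm_inertia_r (hUoo : NmCentreUniqueOo M p A) (hU0 : NmCentreUniqueZero M p hcop A)
    (htot : NmTot M p hcop A)
    (hdoo : ∀ σ ∈ A.decompositionSubgroup ℚ, ∀ u ∈ gaussOBar (M * p) A,
      galF (M * p) σ • u ∈ gaussOBar (M * p) A)
    (hdz : ∀ σ ∈ A.decompositionSubgroup ℚ, ∀ u ∈ nmV0 M p hcop A,
      galF (M * p) σ • u ∈ nmV0 M p hcop A)
    (hioo : ∀ σ ∈ A.inertiaSubgroupIn ℚ, ∀ (u : gaussOBar (M * p) A)
      (h : galF (M * p) σ • (u : FLb (M * p)) ∈ gaussOBar (M * p) A),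
      nmRedOo (M * p) A ⟨_, h⟩ = nmRedOo (M * p) A u)
    (hiz : ∀ σ ∈ A.inertiaSubgroupIn ℚ, ∀ (w : nmV0 M p hcop A)
      (h : galF (M * p) σ • (w : FLb (M * p)) ∈ nmV0 M p hcop A),
      nmRed0 M p hcop A ⟨_, h⟩ = nmRed0 M p hcop A w)
    (σ : GQ) (hσ : σ ∈ A.inertiaSubgroupIn ℚ) (P : Place Qb (FLb (M * p))) :
    nmR htot (galF (M * p) σ • P) = nmR htot P := by
  have hσD : σ ∈ A.decompositionSubgroup ℚ :=
    Fermat.Agent.H8.mem_decomposition_of_mem_inertiaSubgroupIn A hσ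
  apply nmR_congr
  rcases htot P with ⟨Q, hQ⟩ | ⟨Q, hQ⟩
  · exact hUoo _ _ Q
      (nmSpecOo_smul σ hσD (hdoo σ⁻¹ (inv_mem hσD)) (hioo σ hσ) P Q hQ) hQ
  · exact hU0 _ _ Q
      (nmSpecZero_smul σ hσD (hdz σ⁻¹ (inv_mem hσD)) (hiz σ hσ) P Q hQ) hQ

/-- **B1-GAL, assembly** : `NodalGalHyp (nmG htot)` from (U) and the four Gauss-ring fields. -/
theorem nmGalHyp_of (hUoo : NmCentreUniqueOo M p A) (hU0 : NmCentreUniqueZero M p hcop A)
    (htot : NmTot M p hcop A)
    (hdoo : ∀ σ ∈ A.decompositionSubgroup ℚ, ∀ u ∈ gaussOBar (M * p) A,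
      galF (M * p) σ • u ∈ gaussOBar (M * p) A)
    (hdz : ∀ σ ∈ A.decompositionSubgroup ℚ, ∀ u ∈ nmV0 M p hcop A,
      galF (M * p) σ • u ∈ nmV0 M p hcop A)
    (hioo : ∀ σ ∈ A.inertiaSubgroupIn ℚ, ∀ (u : gaussOBar (M * p) A)
      (h : galF (M * p) σ • (u : FLb (M * p)) ∈ gaussOBar (M * p) A),
      nmRedOo (M * p) A ⟨_, h⟩ = nmRedOo (M * p) A u)
    (hiz : ∀ σ ∈ A.inertiaSubgroupIn ℚ, ∀ (w : nmV0 M p hcop A)
      (h : galF (M * p) σ • (w : FLb (M * p)) ∈ nmV0 M p hcop A),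
      nmRed0 M p hcop A ⟨_, h⟩ = nmRed0 M p hcop A w) :
    NodalGalHyp (nmG htot) where
  dec_oo := hdoo
  dec_zero := hdz
  inertia_oo := hioo
  inertia_zero := hiz
  inertia_r := nm_inertia_r hUoo hU0 htot hdoo hdz hioo hiz
  dec_r := nm_dec_r hUoo hU0 htot

end Spec

end Fermat.Agent.H74.ORD
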